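import Mathlib
import Fermat.Agent.S24.FF.Basic

/-!
# Deuring's reduction of divisors: basic definitions

`LS D` is the Riemann-Roch space of a divisor, `RedData` is a "constant reduction" of a function
field `F / K` with residue function field `Fb / k`.
-/

set_option autoImplicit false

open AlgebraicCurve

namespace Fermat.Agent.RED

open Fermat.Agent.S24

section LS

variable {K F : Type*} [Field K] [Field F] [Algebra K F]

/-- The Riemann-Roch space `L(D)`. -/
def LS (D : Divisor K F) : Submodule K F where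
  carrier := {f | f = 0 ∨ ∀ v : Place K F, -(D v) ≤ v.ord f}
  zero_mem' := Or.inl rfl
  add_mem' := by
    rintro f g hf hg
    rcases eq_or_ne f 0 with rfl | hf0
    · simpa using hg
    rcases eq_or_ne g 0 with rfl | hg0
    · simpa using hf
    rcases eq_or_ne (f + g) 0 with h | h
    · exact Or.inl h
    refine Or.inr fun v => ?_
    have h1 := hf.resolve_left hf0 v
    have h2 := hg.resolve_left hg0 v
    exact (le_min h1 h2).trans (Place.ord_add_ge v hf0 hg0 h)
  smul_mem' := by
    rintro c f hf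
    rcases eq_or_ne f 0 with rfl | hf0
    · left; simp
    rcases eq_or_ne c 0 with rfl | hc0
    · left; simp
    refine Or.inr fun v => ?_
    rw [Algebra.smul_def, v.ord_mul (by simpa using hc0) hf0, Place.ord_algebraMap, zero_add]
    exact hf.resolve_left hf0 v

theorem mem_LS {D : Divisor K F} {f : F} :
    f ∈ LS D ↔ f = 0 ∨ ∀ v : Place K F, -(D v) ≤ v.ord f := Iff.rfl

theorem mem_LS_of_ne_zero {D : Divisor K F} {f : F} (hf : f ≠ 0) :
    f ∈ LS D ↔ ∀ v : Place K F, -(D v) ≤ v.ord f :=
  ⟨fun h => h.resolve_left hf, Or.inr⟩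

theorem LS_mono {D E : Divisor K F} (h : ∀ v, D v ≤ E v) : LS D ≤ LS E := by
  rintro f (rfl | hf)
  · exact Or.inl rfl
  · exact Or.inr fun v => (neg_le_neg (h v)).trans (hf v)

theorem mul_mem_LS {D E : Divisor K F} {f g : F} (hf : f ∈ LS D) (hg : g ∈ LS E) :
    f * g ∈ LS (D + E) := by
  rcases eq_or_ne f 0 with rfl | hf0
  · left; simp
  rcases eq_or_ne g 0 with rfl | hg0
  · left; simp
  refine Or.inr fun v => ?_
  rw [v.ord_mul hf0 hg0, Finsupp.add_apply]
  have h1 := hf.resolve_left hf0 v
  have h2 := hg.resolve_left hg0 v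
  omega

end LS

/-- A constant reduction of the function field `F / K` with residue function field `Fb / k`. -/
structure RedData (K F k Fb : Type*) [Field K] [Field F] [Algebra K F] [Field k] [Field Fb]
    [Algebra k Fb] where
  /-- the valuation ring of the "Gauss valuation" -/
  O : ValuationSubring F
  /-- the reduction map -/
  red : O →+* Fb
  red_surjective : Function.Surjective red
  isUnit_of_red_ne_zero : ∀ x : O, red x ≠ 0 → IsUnit x
  exists_const : ∀ a : k, ∃ (c : K) (hc : algebraMap K F c ∈ O),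
    red ⟨algebraMap K F c, hc⟩ = algebraMap k Fb a
  red_const : ∀ (c : K) (hc : algebraMap K F c ∈ O), ∃ a : k,
    red ⟨algebraMap K F c, hc⟩ = algebraMap k Fb a
  exists_scale : ∀ f : F, f ≠ 0 → ∃ (c : K) (h : algebraMap K F c * f ∈ O),
    red ⟨algebraMap K F c * f, h⟩ ≠ 0

namespace RedData

variable {K F k Fb : Type*} [Field K] [Field F] [Algebra K F] [Field k] [Field Fb] [Algebra k Fb]
variable (R : RedData K F k Fb)

theorem red_ne_zero_iff (x : R.O) : R.red x ≠ 0 ↔ IsUnit x :=
  ⟨R.isUnit_of_red_ne_zero x, fun h => (h.map R.red).ne_zero⟩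

theorem inv_mem_of_red_ne_zero {x : R.O} (hx : R.red x ≠ 0) : (x : F)⁻¹ ∈ R.O := by
  obtain ⟨u, rfl⟩ := R.isUnit_of_red_ne_zero x hx
  have : ((u : R.O) : F)⁻¹ = ((u⁻¹ : R.Oˣ) : R.O) := by
    have h1 : ((u : R.O) : F) * (((u⁻¹ : R.Oˣ) : R.O) : F) = 1 := by
      have h0 : ((u : R.O) * ((u⁻¹ : R.Oˣ) : R.O) : R.O) = 1 := u.mul_inv
      exact congrArg (Subtype.val) h0
    exact inv_eq_of_mul_eq_one_right h1
  rw [this]
  exact Subtype.mem _

theorem red_inv {x : R.O} (hx : R.red x ≠ 0) :
    R.red ⟨(x : F)⁻¹, R.inv_mem_of_red_ne_zero hx⟩ = (R.red x)⁻¹ := by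
  have hx0 : (x : F) ≠ 0 := by
    intro h
    apply hx
    have : x = 0 := Subtype.ext h
    rw [this, map_zero]
  have h1 : x * ⟨(x : F)⁻¹, R.inv_mem_of_red_ne_zero hx⟩ = 1 := by
    apply Subtype.ext
    simp [hx0]
  have h2 := congrArg R.red h1
  rw [map_mul, map_one] at h2
  exact eq_inv_of_mul_eq_one_right h2

/-- The reduction of a `K`-subspace of `F`. -/
def redSub (V : Submodule K F) : Submodule k Fb where
  carrier := {u | ∃ x : R.O, (x : F) ∈ V ∧ R.red x = u}
  zero_mem' := ⟨0, by simp, map_zero _⟩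
  add_mem' := by
    rintro _ _ ⟨x, hx, rfl⟩ ⟨y, hy, rfl⟩
    exact ⟨x + y, V.add_mem hx hy, map_add _ _ _⟩
  smul_mem' := by
    rintro a _ ⟨x, hx, rfl⟩
    obtain ⟨c, hc, hca⟩ := R.exists_const a
    refine ⟨⟨algebraMap K F c, hc⟩ * x, ?_, ?_⟩
    · have : ((⟨algebraMap K F c, hc⟩ * x : R.O) : F) = c • (x : F) := by
        rw [Algebra.smul_def]; rfl
      rw [this]
      exact V.smul_mem c hx
    · rw [map_mul, hca, Algebra.smul_def]

theorem mem_redSub {V : Submodule K F} {u : Fb} :
    u ∈ R.redSub V ↔ ∃ x : R.O, (x : F) ∈ V ∧ R.red x = u := Iff.rfl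

theorem redSub_mono {V W : Submodule K F} (h : V ≤ W) : R.redSub V ≤ R.redSub W := by
  rintro _ ⟨x, hx, rfl⟩
  exact ⟨x, h hx, rfl⟩

/-- Among finitely many constants, not all zero, one divides all the others in the valuation
ring. -/
theorem exists_pivot {ι : Type*} (s : Finset ι) (g : ι → K) (h : ∃ i ∈ s, g i ≠ 0) :
    ∃ j ∈ s, g j ≠ 0 ∧ ∀ i ∈ s, algebraMap K F (g i / g j) ∈ R.O := by
  classical
  obtain ⟨i₀, hi₀, hg₀⟩ := h
  obtain ⟨j, hj, hmax⟩ := s.exists_max_image (fun i => R.O.valuation (algebraMap K F (g i)))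
    ⟨i₀, hi₀⟩
  have hj0 : g j ≠ 0 := by
    intro h0
    have h1 := hmax i₀ hi₀
    rw [h0, map_zero, map_zero, le_zero_iff, map_eq_zero, map_eq_zero] at h1
    exact hg₀ h1
  refine ⟨j, hj, hj0, fun i hi => ?_⟩
  rw [← ValuationSubring.valuation_le_one_iff, map_div₀, map_div₀]
  have hne : R.O.valuation (algebraMap K F (g j)) ≠ 0 := by
    rw [Ne, map_eq_zero, map_eq_zero]; exact hj0
  rw [div_le_one₀ (zero_lt_iff.mpr hne)]
  exact hmax i hi

/-- Lifts of `k`-linearly independent elements are `K`-linearly independent. -/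
theorem linearIndependent_of_red {ι : Type*} (x : ι → R.O)
    (h : LinearIndependent k (fun i => R.red (x i))) :
    LinearIndependent K (fun i => (x i : F)) := by
  classical
  rw [linearIndependent_iff'] at h ⊢
  intro s g hg
  by_contra hcon
  push Not at hcon
  obtain ⟨j, hj, hj0, hdiv⟩ := R.exists_pivot s g hcon
  choose! a ha using fun (i : ι) (hi : i ∈ s) => R.red_const (g i / g j) (hdiv i hi)
  have h1 : ∑ i ∈ s.attach, (⟨algebraMap K F (g i / g j), hdiv i i.2⟩ : R.O) * x i = 0 := by
    apply Subtype.ext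
    have h0 : ((∑ i ∈ s.attach, (⟨algebraMap K F (g i / g j), hdiv i i.2⟩ : R.O) * x i : R.O) : F)
        = ∑ i ∈ s.attach, algebraMap K F (g i / g j) * (x i : F) := by
      rw [AddSubmonoidClass.coe_finsetSum]
      rfl
    rw [h0, Finset.sum_attach s (fun i => algebraMap K F (g i / g j) * (x i : F))]
    have : ∑ i ∈ s, algebraMap K F (g i / g j) * (x i : F)
        = algebraMap K F (g j)⁻¹ * ∑ i ∈ s, g i • (x i : F) := by
      rw [Finset.mul_sum]
      refine Finset.sum_congr rfl fun i _ => ?_
      rw [Algebra.smul_def, ← mul_assoc, ← map_mul]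
      congr 2
      field_simp
    rw [this, hg, mul_zero]
    rfl
  have h2 := congrArg R.red h1
  rw [map_zero, map_sum] at h2
  have h3 : ∑ i ∈ s, a i • R.red (x i) = 0 := by
    rw [← h2, ← Finset.sum_attach s]
    refine Finset.sum_congr rfl fun i _ => ?_
    rw [map_mul, ha i i.2, Algebra.smul_def]
  have h4 := h s a h3 j hj
  have h5 := ha j hj
  rw [h4, map_zero] at h5
  have h6 : (⟨algebraMap K F (g j / g j), hdiv j hj⟩ : R.O) = 1 := by
    apply Subtype.ext
    simp [div_self hj0]
  rw [h6, map_one] at h5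
  exact one_ne_zero h5

theorem finrank_redSub_le (V : Submodule K F) [FiniteDimensional K V] :
    FiniteDimensional k (R.redSub V) ∧ Module.finrank k (R.redSub V) ≤ Module.finrank K V := by
  have key : ∀ (m : ℕ) (u : Fin m → R.redSub V), LinearIndependent k u →
      m ≤ Module.finrank K V := by
    intro m u hu
    choose x hxV hx using fun i => (u i).2
    have h1 : LinearIndependent k (fun i => R.red (x i)) := by
      have : (fun i => R.red (x i)) = (R.redSub V).subtype ∘ u := by
        funext i; exact hx i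
      rw [this]
      exact hu.map' _ (Submodule.ker_subtype _)
    have h2 := R.linearIndependent_of_red x h1
    have h3 : LinearIndependent K (fun i => (⟨(x i : F), hxV i⟩ : V)) := by
      refine LinearIndependent.of_comp V.subtype ?_
      exact h2
    simpa using h3.fintype_card_le_finrank
  have hrank : Module.rank k (R.redSub V) ≤ (Module.finrank K V : ℕ) := by
    apply rank_le
    intro t ht
    have h1 : LinearIndependent k (fun i : Fin t.card => ((t.equivFin.symm i : t) : R.redSub V)) :=
      ht.comp _ t.equivFin.symm.injective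
    exact key _ _ h1
  have hfd : FiniteDimensional k (R.redSub V) := by
    rw [FiniteDimensional, ← Module.rank_lt_aleph0_iff]
    exact lt_of_le_of_lt hrank (Cardinal.natCast_lt_aleph0)
  exact ⟨hfd, Module.finrank_le_of_rank_le hrank⟩

end RedData

end Fermat.Agent.RED
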