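import Mathlib
import Fermat.Agent.RED.Deuring.Basic
import Fermat.Agent.S24.Descent

/-!
# The fundamental inequality for a constant reduction
`[Fb : k(red h)] ≤ [F : K(h)]`.
-/

set_option autoImplicit false

open AlgebraicCurve IntermediateField
open scoped IntermediateField.algebraAdjoinAdjoin

namespace Fermat.Agent.RED

open Fermat.Agent.S24

/-- If the monomials `h ^ a * b i` are `K`-linearly independent then the `b i` are linearly
independent over `K(h)`. -/
theorem linearIndependent_adjoin_of_monomials {K F : Type*} [Field K] [Field F] [Algebra K F]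
    (h : F) {m : ℕ} (b : Fin m → F)
    (hb : LinearIndependent K (fun p : ℕ × Fin m => h ^ p.1 * b p.2)) :
    LinearIndependent K⟮h⟯ b := by
  classical
  rw [← LinearIndependent.iff_fractionRing (Algebra.adjoin K {h}) K⟮h⟯]
  rw [Fintype.linearIndependent_iff]
  intro g hg
  have hg' : ∀ i, ∃ p : Polynomial K, Polynomial.aeval h p = (g i : F) := by
    intro i
    have h1 : ∀ z : F, z ∈ Algebra.adjoin K {h} → ∃ p : Polynomial K,
        Polynomial.aeval h p = z := by
      intro z hz
      rw [Algebra.adjoin_singleton_eq_range_aeval] at hz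
      exact hz
    exact h1 _ (g i).2
  choose p hp using hg'
  obtain ⟨D, hD⟩ : ∃ D : ℕ, ∀ i, (p i).natDegree < D := by
    refine ⟨(Finset.univ.sup fun i => (p i).natDegree) + 1, fun i => ?_⟩
    exact Nat.lt_succ_of_le (Finset.le_sup (f := fun i => (p i).natDegree) (Finset.mem_univ i))
  rw [linearIndependent_iff'] at hb
  have h4 := hb (Finset.range D ×ˢ Finset.univ) (fun q => (p q.2).coeff q.1) ?_
  · intro i
    have hpi : p i = 0 := by
      ext a
      by_cases ha : a < D
      · simpa using h4 (a, i) (by simp [ha])
      · rw [Polynomial.coeff_eq_zero_of_natDegree_lt (lt_of_lt_of_le (hD i) (not_lt.1 ha))]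
        simp
    apply Subtype.ext
    rw [← hp i, hpi]
    simp
  · rw [Finset.sum_product_right]
    have h5 : ∑ i, (g i : F) * b i = 0 := hg
    rw [← h5]
    refine Finset.sum_congr rfl fun i _ => ?_
    rw [← hp i, Polynomial.aeval_eq_sum_range' (hD i), Finset.sum_mul]
    refine Finset.sum_congr rfl fun a _ => ?_
    simp only [Algebra.smul_def]
    ring

namespace RedData

variable {K F k Fb : Type*} [Field K] [Field F] [Algebra K F] [Field k] [Field Fb] [Algebra k Fb]
variable (R : RedData K F k Fb)

/-- The fundamental inequality. -/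
theorem finrank_red_le (h : R.O) (htr : Transcendental k (R.red h))
    [FiniteDimensional K⟮(h : F)⟯ F] :
    FiniteDimensional k⟮R.red h⟯ Fb ∧
      Module.finrank k⟮R.red h⟯ Fb ≤ Module.finrank K⟮(h : F)⟯ F := by
  classical
  have key : ∀ (m : ℕ) (u : Fin m → Fb), LinearIndependent k⟮R.red h⟯ u →
      m ≤ Module.finrank K⟮(h : F)⟯ F := by
    intro m u hu
    have hgen : Transcendental k (AdjoinSimple.gen k (R.red h)) := by
      intro halg
      apply htr
      have := halg.algebraMap (A := Fb)
      simpa using this
    have hb := linearIndependent_pow_of_transcendental (K := k) (AdjoinSimple.gen k (R.red h)) hgen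
    have h1 := linearIndependent_smul hb hu
    choose b hbu using fun i => R.red_surjective (u i)
    have h2 : LinearIndependent k (fun q : ℕ × Fin m => R.red (h ^ q.1 * b q.2)) := by
      have : (fun q : ℕ × Fin m => R.red (h ^ q.1 * b q.2))
          = fun q : ℕ × Fin m => AdjoinSimple.gen k (R.red h) ^ q.1 • u q.2 := by
        funext q
        rw [map_mul, map_pow, hbu, IntermediateField.smul_def]
        simp
      rw [this]
      exact h1
    have h3 := R.linearIndependent_of_red _ h2
    have h4 : LinearIndependent K⟮(h : F)⟯ (fun i => (b i : F)) :=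
      linearIndependent_adjoin_of_monomials (h : F) _ h3
    simpa using h4.fintype_card_le_finrank
  have hrank : Module.rank k⟮R.red h⟯ Fb ≤ (Module.finrank K⟮(h : F)⟯ F : ℕ) := by
    apply rank_le
    intro t ht
    have h1 : LinearIndependent k⟮R.red h⟯ (fun i : Fin t.card => ((t.equivFin.symm i : t) : Fb)) :=
      ht.comp _ t.equivFin.symm.injective
    exact key _ _ h1
  have hfd : FiniteDimensional k⟮R.red h⟯ Fb := by
    rw [FiniteDimensional, ← Module.rank_lt_aleph0_iff]
    exact lt_of_le_of_lt hrank (Cardinal.natCast_lt_aleph0)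
  exact ⟨hfd, Module.finrank_le_of_rank_le hrank⟩

end RedData

end Fermat.Agent.RED
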