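import Mathlib
import Fermat.Agent.RED.Deuring.Basic

/-!
# Divisor lemmas and the pole divisor of a finite dimensional space of functions
-/

set_option autoImplicit false

open AlgebraicCurve

namespace Fermat.Agent.RED

open Fermat.Agent.S24

section Div

variable {K F : Type*} [Field K] [Field F] [Algebra K F]

theorem degree_eq_sum (h1 : ∀ v : Place K F, v.deg = 1) (D : Divisor K F) :
    Divisor.degree D = D.sum (fun _ n => n) := by
  rw [Divisor.degree, Finsupp.liftAddHom_apply]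
  refine Finsupp.sum_congr fun v _ => ?_
  simp [h1 v]

theorem degree_nonneg (h1 : ∀ v : Place K F, v.deg = 1) {D : Divisor K F} (hD : ∀ v, 0 ≤ D v) :
    0 ≤ Divisor.degree D := by
  rw [degree_eq_sum h1]
  exact Finset.sum_nonneg fun v _ => hD v

theorem degree_mono (h1 : ∀ v : Place K F, v.deg = 1) {D E : Divisor K F} (h : ∀ v, D v ≤ E v) :
    Divisor.degree D ≤ Divisor.degree E := by
  have := degree_nonneg h1 (D := E - D) (fun v => by rw [Finsupp.sub_apply]; linarith [h v])
  rw [map_sub] at this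
  linarith

theorem eq_zero_of_nonneg_of_degree (h1 : ∀ v : Place K F, v.deg = 1) {D : Divisor K F}
    (hD : ∀ v, 0 ≤ D v) (hdeg : Divisor.degree D ≤ 0) : D = 0 := by
  rw [degree_eq_sum h1] at hdeg
  have h0 : D.sum (fun _ n => n) = 0 := le_antisymm hdeg (Finset.sum_nonneg fun v _ => hD v)
  have h2 := (Finset.sum_eq_zero_iff_of_nonneg (fun v _ => hD v)).mp h0
  ext v
  by_cases hv : v ∈ D.support
  · exact h2 v hv
  · simpa using hv

theorem eq_of_le_of_degree (h1 : ∀ v : Place K F, v.deg = 1) {D E : Divisor K F}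
    (h : ∀ v, D v ≤ E v) (hdeg : Divisor.degree E ≤ Divisor.degree D) : D = E := by
  have := eq_zero_of_nonneg_of_degree h1 (D := E - D)
    (fun v => by rw [Finsupp.sub_apply]; linarith [h v]) (by rw [map_sub]; linarith)
  exact (sub_eq_zero.mp this).symm

theorem exists_eq_single (h1 : ∀ v : Place K F, v.deg = 1) {D : Divisor K F}
    (hD : ∀ v, 0 ≤ D v) (hdeg : Divisor.degree D = 1) : ∃ v, D = Finsupp.single v 1 := by
  classical
  have hne : D ≠ 0 := by
    rintro rfl
    simp at hdeg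
  obtain ⟨v, hv⟩ := Finsupp.support_nonempty_iff.mpr hne
  have hv1 : 1 ≤ D v := by
    have := hD v
    have h2 : D v ≠ 0 := Finsupp.mem_support_iff.mp hv
    omega
  refine ⟨v, (eq_of_le_of_degree h1 (fun w => ?_) ?_).symm⟩
  · rw [Finsupp.single_apply]
    split_ifs with h
    · rw [← h]; exact hv1
    · exact hD w
  · rw [hdeg, Divisor.degree_single, h1 v]
    simp

/-- A nonzero element of `L(D)` forces `deg D ≥ 0`. -/
theorem degree_nonneg_of_mem_LS [HasPrincipalDivisors K F] (h1 : ∀ v : Place K F, v.deg = 1)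
    {D : Divisor K F} {f : F} (hf : f ∈ LS D) (hf0 : f ≠ 0) : 0 ≤ Divisor.degree D := by
  obtain ⟨Df, hDf, hdeg⟩ := HasPrincipalDivisors.exists_divisor (K := K) f hf0
  have := degree_nonneg h1 (D := D + Df) (fun v => by
    rw [Finsupp.add_apply, hDf]
    have := (mem_LS_of_ne_zero hf0).mp hf v
    omega)
  rw [map_add, hdeg] at this
  linarith

theorem LS_eq_bot_of_degree_neg [HasPrincipalDivisors K F] (h1 : ∀ v : Place K F, v.deg = 1)
    {D : Divisor K F} (hD : Divisor.degree D < 0) : LS D = ⊥ := by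
  rw [eq_bot_iff]
  intro f hf
  by_contra hf0
  have := degree_nonneg_of_mem_LS h1 hf hf0
  omega

end Div

section PoleDiv

variable {k Fb : Type*} [Field k] [Field Fb] [Algebra k Fb]

/-- `E` is the pole divisor of the space `W`: `E(Q) = max {-ord_Q u : u ∈ W, u ≠ 0}`. -/
def IsPoleDiv (W : Submodule k Fb) (E : Divisor k Fb) : Prop :=
  (∀ u ∈ W, u ≠ 0 → ∀ Q : Place k Fb, -(E Q) ≤ Q.ord u) ∧
    ∀ Q : Place k Fb, ∃ u ∈ W, u ≠ 0 ∧ Q.ord u = -(E Q)

theorem IsPoleDiv.le_LS {W : Submodule k Fb} {E : Divisor k Fb} (h : IsPoleDiv W E) :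
    W ≤ LS E := by
  intro u hu
  rcases eq_or_ne u 0 with rfl | hu0
  · exact Or.inl rfl
  · exact Or.inr (h.1 u hu hu0)

theorem IsPoleDiv.unique {W : Submodule k Fb} {E E' : Divisor k Fb} (h : IsPoleDiv W E)
    (h' : IsPoleDiv W E') : E = E' := by
  ext Q
  obtain ⟨u, hu, hu0, hQ⟩ := h.2 Q
  obtain ⟨u', hu', hu0', hQ'⟩ := h'.2 Q
  have h1 := h.1 u' hu' hu0' Q
  have h2 := h'.1 u hu hu0 Q
  omega

theorem IsPoleDiv.mono {W W' : Submodule k Fb} {E E' : Divisor k Fb} (h : IsPoleDiv W E)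
    (h' : IsPoleDiv W' E') (hW : W ≤ W') (Q : Place k Fb) : E Q ≤ E' Q := by
  obtain ⟨u, hu, hu0, hQ⟩ := h.2 Q
  have h2 := h'.1 u (hW hu) hu0 Q
  omega

/-- Every finite set of nonzero functions lies in some `L(D)`. -/
theorem exists_le_LS [HasPrincipalDivisors k Fb] (W : Submodule k Fb) [FiniteDimensional k W] :
    ∃ D : Divisor k Fb, W ≤ LS D := by
  classical
  have key : ∀ s : Finset Fb, ∃ D : Divisor k Fb, (∀ Q, 0 ≤ D Q) ∧ ∀ u ∈ s, u ∈ LS D := by
    intro s
    induction s using Finset.induction_on with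
    | empty => exact ⟨0, fun _ => le_rfl, by simp⟩
    | insert a s _ ih =>
      obtain ⟨D, hD0, hD⟩ := ih
      rcases eq_or_ne a 0 with rfl | ha
      · refine ⟨D, hD0, fun u hu => ?_⟩
        rcases Finset.mem_insert.mp hu with rfl | hu
        · exact Or.inl rfl
        · exact hD u hu
      obtain ⟨Da, hDa, -⟩ := HasPrincipalDivisors.exists_divisor (K := k) a ha
      refine ⟨D + Da.mapRange (fun n => max 0 (-n)) (by simp), fun Q => ?_, fun u hu => ?_⟩
      · rw [Finsupp.add_apply, Finsupp.mapRange_apply]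
        have := hD0 Q
        have := le_max_left 0 (-(Da Q))
        omega
      · rcases Finset.mem_insert.mp hu with rfl | hu
        · refine Or.inr fun Q => ?_
          rw [Finsupp.add_apply, Finsupp.mapRange_apply, hDa]
          have := hD0 Q
          have := le_max_right 0 (-(Q.ord u))
          omega
        · refine LS_mono (fun Q => ?_) (hD u hu)
          rw [Finsupp.add_apply, Finsupp.mapRange_apply]
          have := le_max_left 0 (-(Da Q))
          omega
  obtain ⟨s, hs⟩ := (Submodule.fg_iff_finiteDimensional W).mpr inferInstance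
  obtain ⟨D, -, hD⟩ := key s
  refine ⟨D, ?_⟩
  rw [← hs, Submodule.span_le]
  exact fun u hu => hD u hu

/-- Existence of the pole divisor. -/
theorem exists_isPoleDiv [HasPrincipalDivisors k Fb] (W : Submodule k Fb) [FiniteDimensional k W]
    (hW : W ≠ ⊥) : ∃ E : Divisor k Fb, IsPoleDiv W E := by
  classical
  obtain ⟨D, hD⟩ := exists_le_LS W
  obtain ⟨u₀, hu₀, hu₀0⟩ := Submodule.exists_mem_ne_zero_of_ne_bot hW
  obtain ⟨D₀, hD₀, -⟩ := HasPrincipalDivisors.exists_divisor (K := k) u₀ hu₀0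
  have hex : ∀ Q : Place k Fb, ∃ n : ℤ, (∃ u ∈ W, u ≠ 0 ∧ Q.ord u = n) ∧
      ∀ m : ℤ, (∃ u ∈ W, u ≠ 0 ∧ Q.ord u = m) → n ≤ m := by
    intro Q
    refine Int.exists_least_of_bdd ⟨-(D Q), ?_⟩ ⟨Q.ord u₀, u₀, hu₀, hu₀0, rfl⟩
    rintro m ⟨u, hu, hu0, rfl⟩
    exact (mem_LS_of_ne_zero hu0).mp (hD hu) Q
  choose n hn hmin using hex
  have hsupp : ∀ Q, -(n Q) ≠ 0 → Q ∈ D.support ∪ D₀.support := by
    intro Q hQ
    by_contra hcon
    rw [Finset.mem_union, not_or, Finsupp.notMem_support_iff, Finsupp.notMem_support_iff] at hcon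
    apply hQ
    have h1 : n Q ≤ 0 := by
      have := hmin Q (Q.ord u₀) ⟨u₀, hu₀, hu₀0, rfl⟩
      rw [← hD₀, hcon.2] at this
      exact this
    obtain ⟨u, hu, hu0, hQu⟩ := hn Q
    have h2 := (mem_LS_of_ne_zero hu0).mp (hD hu) Q
    rw [hcon.1, hQu] at h2
    omega
  refine ⟨Finsupp.onFinset (D.support ∪ D₀.support) (fun Q => -(n Q)) hsupp, ?_, ?_⟩
  · intro u hu hu0 Q
    rw [Finsupp.onFinset_apply, neg_neg]
    exact hmin Q _ ⟨u, hu, hu0, rfl⟩
  · intro Q
    obtain ⟨u, hu, hu0, hQu⟩ := hn Q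
    exact ⟨u, hu, hu0, by rw [Finsupp.onFinset_apply, neg_neg, hQu]⟩

/-- A generic element of `W` attains the pole divisor on a given finite set of places. -/
theorem IsPoleDiv.exists_generic [Infinite k] {W : Submodule k Fb} {E : Divisor k Fb}
    (h : IsPoleDiv W E) (hW : W ≠ ⊥) (S : Finset (Place k Fb)) :
    ∃ u ∈ W, u ≠ 0 ∧ ∀ Q ∈ S, Q.ord u = -(E Q) := by
  classical
  let p : Option S → Submodule k W := fun o =>
    match o with
    | none => ⊥
    | some Q => (LS (E - Finsupp.single (Q : Place k Fb) 1)).comap W.subtype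
  have hp : ∀ o, p o ≠ ⊤ := by
    intro o
    match o with
    | none =>
      intro htop
      apply hW
      have h1 : (⊥ : Submodule k W) = ⊤ := htop
      rw [eq_bot_iff]
      intro x hx
      have : (⟨x, hx⟩ : W) ∈ (⊥ : Submodule k W) := by rw [h1]; trivial
      simpa using this
    | some Q =>
      intro htop
      obtain ⟨u, hu, hu0, hQu⟩ := h.2 Q
      have : (⟨u, hu⟩ : W) ∈ (LS (E - Finsupp.single (Q : Place k Fb) 1)).comap W.subtype := by
        have h1 : p (some Q) = ⊤ := htop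
        have h2 : (⟨u, hu⟩ : W) ∈ p (some Q) := by rw [h1]; trivial
        exact h2
      have h3 := (mem_LS_of_ne_zero hu0).mp this Q
      rw [Finsupp.sub_apply, Finsupp.single_eq_same, hQu] at h3
      omega
  have hcov : ⋃ o, (p o : Set W) ≠ Set.univ := by
    intro hcov
    obtain ⟨o, ho⟩ := Subspace.exists_eq_top_of_iUnion_eq_univ hcov
    exact hp o ho
  obtain ⟨u, hu⟩ := (Set.ne_univ_iff_exists_notMem _).mp hcov
  rw [Set.mem_iUnion, not_exists] at hu
  have hu0 : (u : Fb) ≠ 0 := by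
    intro h0
    apply hu none
    have : u = 0 := Subtype.ext h0
    rw [this]
    exact Submodule.zero_mem _
  refine ⟨u, u.2, hu0, fun Q hQ => ?_⟩
  have h1 := hu (some ⟨Q, hQ⟩)
  have h2 : ¬ (u : Fb) ∈ LS (E - Finsupp.single Q 1) := h1
  rw [mem_LS_of_ne_zero hu0] at h2
  push Not at h2
  obtain ⟨v, hv⟩ := h2
  have h3 := h.1 u u.2 hu0 v
  rw [Finsupp.sub_apply, Finsupp.single_apply] at hv
  split_ifs at hv with hQv
  · subst hQv
    omega
  · omega

end PoleDiv

end Fermat.Agent.RED
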