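import Mathlib
import Fermat.Agent.RED.Deuring.FundIneq
import Fermat.Agent.RED.Deuring.PoleDiv

/-!
# Deuring's reduction of divisors: construction of the reduction map on places

Given a constant reduction `R : RedData K F k Fb` and the hypotheses `DeuringHyp R g c`
(Riemann's theorem on the generic fibre, Riemann's inequality `gbar ≥ g` on the special fibre,
degree of pole divisors, orthonormal bases), we construct `r : Place K F → Place k Fb` with
`r_* div f = div (red f)` for all units `f` of the valuation ring, and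
`red (L(D) ∩ O) = L(r_* D)` for `deg D` large.
-/

set_option autoImplicit false

open AlgebraicCurve IntermediateField

namespace Fermat.Agent.RED

open Fermat.Agent.S24

/-- A map which is additive on a "large" subsemigroup extends to a homomorphism. -/
theorem exists_addMonoidHom_of_add_on {A M : Type*} [AddCommGroup A] [AddCommGroup M]
    (S : A → Prop) (hex : ∀ a, ∃ b, S b ∧ S (b + a)) (hS : ∀ a b, S a → S b → S (a + b))
    (f : A → M) (hf : ∀ a b, S a → S b → f (a + b) = f a + f b) :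
    ∃ φ : A →+ M, ∀ a b, S b → S (b + a) → φ a = f (b + a) - f b := by
  choose b hb hba using hex
  have key : ∀ a B, S B → S (B + a) → f (b a + a) - f (b a) = f (B + a) - f B := by
    intro a B hB hBa
    have h1 : f (b a + a) + f B = f (B + a) + f (b a) := by
      rw [← hf _ _ (hba a) hB, ← hf _ _ hBa (hb a)]
      congr 1
      abel
    rw [sub_eq_sub_iff_add_eq_add]
    exact h1
  refine ⟨AddMonoidHom.mk' (fun a => f (b a + a) - f (b a)) ?_, fun a B hB hBa => key a B hB hBa⟩
  intro a a'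
  have e : b a + b a' + (a + a') = (b a + a) + (b a' + a') := by abel
  rw [key (a + a') (b a + b a') (hS _ _ (hb a) (hb a')) (by
    rw [e]; exact hS _ _ (hba a) (hba a'))]
  rw [e, hf _ _ (hba a) (hba a'), hf _ _ (hb a) (hb a')]
  abel

variable {K F k Fb : Type*} [Field K] [Field F] [Algebra K F] [Field k] [Field Fb] [Algebra k Fb]

/-- The hypotheses of Deuring's theory of reduction of divisors. -/
structure DeuringHyp (R : RedData K F k Fb) (g c : ℤ) : Prop where
  g_nonneg : 0 ≤ g
  c_nonneg : 0 ≤ c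
  nonempty_top : Nonempty (Place K F)
  deg_top : ∀ v : Place K F, v.deg = 1
  hpd_top : HasPrincipalDivisors K F
  finite_top : ∀ D : Divisor K F, FiniteDimensional K (LS D)
  riemann_top : ∀ D : Divisor K F, c ≤ Divisor.degree D →
    (Module.finrank K (LS D) : ℤ) = Divisor.degree D + 1 - g
  degree_le_top : ∀ (h : F) (Y : Divisor K F), h ∉ Set.range (algebraMap K F) →
    (∀ v, 0 ≤ Y v) → (∀ v : Place K F, -(Y v) ≤ v.ord h) →
    FiniteDimensional K⟮h⟯ F ∧ (Module.finrank K⟮h⟯ F : ℤ) ≤ Divisor.degree Y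
  infinite_bot : Infinite k
  deg_bot : ∀ v : Place k Fb, v.deg = 1
  hpd_bot : HasPrincipalDivisors k Fb
  finite_bot : ∀ E : Divisor k Fb, FiniteDimensional k (LS E)
  le_succ_bot : ∀ E : Divisor k Fb, 0 ≤ Divisor.degree E →
    (Module.finrank k (LS E) : ℤ) ≤ Divisor.degree E + 1
  riemann_bot : ∀ E : Divisor k Fb, c ≤ Divisor.degree E →
    (Module.finrank k (LS E) : ℤ) ≤ Divisor.degree E + 1 - g
  le_finrank_bot : ∀ (h : Fb) (Z : Divisor k Fb), (∀ Q, 0 ≤ Z Q) →
    (∀ Q : Place k Fb, 0 < Z Q → Q.ord h ≤ -(Z Q)) → FiniteDimensional k⟮h⟯ Fb →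
    Divisor.degree Z ≤ (Module.finrank k⟮h⟯ Fb : ℤ)
  transcendental_bot : ∀ h : Fb, h ∉ Set.range (algebraMap k Fb) → Transcendental k h
  on : ∀ V : Submodule K F, FiniteDimensional K V →
    Module.finrank K V ≤ Module.finrank k (R.redSub V)

namespace DeuringHyp

variable {R : RedData K F k Fb} {g c : ℤ} (H : DeuringHyp R g c)
include H

/-- Lemma B: the pole divisor of the reduction of `L(D)` has degree at most `deg D`. -/
theorem degree_poleDiv_le {D : Divisor K F} {E : Divisor k Fb}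
    (hE : IsPoleDiv (R.redSub (LS D)) E) (hne : R.redSub (LS D) ≠ ⊥) :
    Divisor.degree E ≤ Divisor.degree D := by
  classical
  have := H.hpd_top
  have := H.hpd_bot
  have := H.infinite_bot
  obtain ⟨u₂, hu₂W, hu₂0⟩ := Submodule.exists_mem_ne_zero_of_ne_bot hne
  obtain ⟨Du₂, hDu₂, hdeg₂⟩ := HasPrincipalDivisors.exists_divisor (K := k) u₂ hu₂0
  set Z := Du₂ + E with hZ
  have hZ0 : ∀ Q, 0 ≤ Z Q := fun Q => by
    rw [hZ, Finsupp.add_apply, hDu₂]
    have := hE.1 u₂ hu₂W hu₂0 Q
    omega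
  have hZdeg : Divisor.degree Z = Divisor.degree E := by rw [hZ, map_add, hdeg₂, zero_add]
  obtain ⟨u₁, hu₁W, hu₁0, hu₁⟩ := hE.exists_generic hne Z.support
  obtain ⟨x₁, hx₁D, hx₁⟩ := hu₁W
  obtain ⟨x₂, hx₂D, hx₂⟩ := hu₂W
  have hx₂0 : (x₂ : F) ≠ 0 := by
    intro h0
    apply hu₂0
    have : x₂ = 0 := Subtype.ext h0
    rw [← hx₂, this, map_zero]
  have hx₁0 : (x₁ : F) ≠ 0 := by
    intro h0
    apply hu₁0
    have : x₁ = 0 := Subtype.ext h0
    rw [← hx₁, this, map_zero]
  have hD0 : 0 ≤ Divisor.degree D := degree_nonneg_of_mem_LS H.deg_top hx₂D hx₂0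
  by_cases hpos : Divisor.degree E ≤ 0
  · exact hpos.trans hD0
  push Not at hpos
  have hexQ : ∃ Q₀, 0 < Z Q₀ := by
    by_contra hcon
    push Not at hcon
    have h0 : Z = 0 := by
      ext Q
      exact le_antisymm (hcon Q) (hZ0 Q)
    rw [h0, map_zero] at hZdeg
    omega
  obtain ⟨Q₀, hQ₀⟩ := hexQ
  have hred₂ : R.red x₂ ≠ 0 := by rw [hx₂]; exact hu₂0
  set y : R.O := x₁ * ⟨(x₂ : F)⁻¹, R.inv_mem_of_red_ne_zero hred₂⟩ with hydef
  have hyF : (y : F) = (x₁ : F) * (x₂ : F)⁻¹ := rfl
  have hy : R.red y = u₁ * u₂⁻¹ := by rw [hydef, map_mul, R.red_inv hred₂, hx₁, hx₂]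
  have hordy : ∀ Q : Place k Fb, 0 < Z Q → Q.ord (R.red y) ≤ -(Z Q) := by
    intro Q hQ
    have hQs : Q ∈ Z.support := Finsupp.mem_support_iff.mpr hQ.ne'
    rw [hy, Q.ord_mul hu₁0 (inv_ne_zero hu₂0), Q.ord_inv, hu₁ Q hQs, ← hDu₂ Q, hZ,
      Finsupp.add_apply]
    omega
  have hnc : R.red y ∉ Set.range (algebraMap k Fb) := by
    rintro ⟨a, ha⟩
    have := hordy Q₀ hQ₀
    rw [← ha, Place.ord_algebraMap] at this
    omega
  have htr := H.transcendental_bot _ hnc
  have hncy : (y : F) ∉ Set.range (algebraMap K F) := by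
    rintro ⟨a, ha⟩
    obtain ⟨b, hb⟩ := R.red_const a (by rw [ha]; exact y.2)
    apply hnc
    refine ⟨b, ?_⟩
    rw [← hb]
    congr 1
    exact Subtype.ext ha
  obtain ⟨Dx₂, hDx₂, hdegx₂⟩ := HasPrincipalDivisors.exists_divisor (K := K) (x₂ : F) hx₂0
  obtain ⟨hfd, hle⟩ := H.degree_le_top (y : F) (D + Dx₂) hncy
    (fun v => by
      rw [Finsupp.add_apply, hDx₂]
      have := (mem_LS_of_ne_zero hx₂0).mp hx₂D v
      omega)
    (fun v => by
      rw [Finsupp.add_apply, hDx₂, hyF, v.ord_mul hx₁0 (inv_ne_zero hx₂0), v.ord_inv]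
      have := (mem_LS_of_ne_zero hx₁0).mp hx₁D v
      omega)
  have := hfd
  obtain ⟨hfd', hle'⟩ := R.finrank_red_le y htr
  have h3 := H.le_finrank_bot (R.red y) Z hZ0 hordy hfd'
  rw [map_add, hdegx₂, add_zero] at hle
  rw [hZdeg] at h3
  have h4 : (Module.finrank k⟮R.red y⟯ Fb : ℤ) ≤ Module.finrank K⟮(y : F)⟯ F := by
    exact_mod_cast hle'
  linarith

theorem finrank_LS {D : Divisor K F} (hD : c + g ≤ Divisor.degree D) :
    (Module.finrank K (LS D) : ℤ) = Divisor.degree D + 1 - g :=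
  H.riemann_top D (by have := H.g_nonneg; linarith)

theorem redSub_ne_bot {D : Divisor K F} (hD : c + g ≤ Divisor.degree D) :
    R.redSub (LS D) ≠ ⊥ := by
  intro hbot
  have h1 := H.finrank_LS hD
  have h2 := H.on (LS D) (H.finite_top D)
  rw [hbot, finrank_bot] at h2
  have := H.c_nonneg
  have h3 : (Module.finrank K (LS D) : ℤ) ≤ 0 := by exact_mod_cast h2
  linarith

/-- Lemma C. -/
theorem poleDiv_spec {D : Divisor K F} {E : Divisor k Fb} (hD : c + g ≤ Divisor.degree D)
    (hE : IsPoleDiv (R.redSub (LS D)) E) :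
    Divisor.degree E = Divisor.degree D ∧ R.redSub (LS D) = LS E := by
  have := H.hpd_bot
  have := H.finite_bot E
  have := H.finite_top D
  have h1 := H.finrank_LS hD
  have h2 : (Module.finrank K (LS D) : ℤ) ≤ Module.finrank k (R.redSub (LS D)) := by
    exact_mod_cast H.on (LS D) (H.finite_top D)
  have h3 : (Module.finrank k (R.redSub (LS D)) : ℤ) ≤ Module.finrank k (LS E) := by
    exact_mod_cast Submodule.finrank_mono hE.le_LS
  have h4 := H.degree_poleDiv_le hE (H.redSub_ne_bot hD)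
  have hc := H.c_nonneg
  have h5 : c ≤ Divisor.degree E := by
    by_contra hlt
    push Not at hlt
    by_cases hneg : Divisor.degree E < 0
    · rw [LS_eq_bot_of_degree_neg H.deg_bot hneg, finrank_bot] at h3
      push_cast at h3
      linarith
    · have := H.le_succ_bot E (not_lt.mp hneg)
      linarith
  have h6 := H.riemann_bot E h5
  refine ⟨by linarith, ?_⟩
  refine Submodule.eq_of_le_of_finrank_le hE.le_LS ?_
  have : (Module.finrank k (LS E) : ℤ) ≤ Module.finrank k (R.redSub (LS D)) := by linarith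
  exact_mod_cast this

end DeuringHyp

open Classical in
/-- The reduction of a (large) divisor: the pole divisor of the reduction of `L(D)`. -/
noncomputable def RedData.Rp (R : RedData K F k Fb) (D : Divisor K F) : Divisor k Fb :=
  if h : ∃ E, IsPoleDiv (R.redSub (LS D)) E then h.choose else 0

namespace DeuringHyp

variable {R : RedData K F k Fb} {g c : ℤ} (H : DeuringHyp R g c)
include H

theorem isPoleDiv_Rp {D : Divisor K F} (hD : c + g ≤ Divisor.degree D) :
    IsPoleDiv (R.redSub (LS D)) (R.Rp D) := by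
  have := H.hpd_bot
  have := H.finite_top D
  have := (R.finrank_redSub_le (LS D)).1
  have hex := exists_isPoleDiv (R.redSub (LS D)) (H.redSub_ne_bot hD)
  rw [RedData.Rp, dif_pos hex]
  exact hex.choose_spec

theorem degree_Rp {D : Divisor K F} (hD : c + g ≤ Divisor.degree D) :
    Divisor.degree (R.Rp D) = Divisor.degree D :=
  (H.poleDiv_spec hD (H.isPoleDiv_Rp hD)).1

theorem redSub_LS_eq {D : Divisor K F} (hD : c + g ≤ Divisor.degree D) :
    R.redSub (LS D) = LS (R.Rp D) :=
  (H.poleDiv_spec hD (H.isPoleDiv_Rp hD)).2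

theorem Rp_mono {D D' : Divisor K F} (hD : c + g ≤ Divisor.degree D)
    (hD' : c + g ≤ Divisor.degree D') (h : ∀ v, D v ≤ D' v) (Q : Place k Fb) :
    R.Rp D Q ≤ R.Rp D' Q :=
  (H.isPoleDiv_Rp hD).mono (H.isPoleDiv_Rp hD') (R.redSub_mono (LS_mono h)) Q

/-- Lemma D: additivity on large divisors. -/
theorem Rp_add {D D' : Divisor K F} (hD : c + g ≤ Divisor.degree D)
    (hD' : c + g ≤ Divisor.degree D') : R.Rp (D + D') = R.Rp D + R.Rp D' := by
  have hc := H.c_nonneg
  have hg := H.g_nonneg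
  have hDD : c + g ≤ Divisor.degree (D + D') := by rw [map_add]; linarith
  symm
  refine eq_of_le_of_degree H.deg_bot (fun Q => ?_) ?_
  · obtain ⟨u, ⟨x, hxD, hx⟩, hu0, hQ⟩ := (H.isPoleDiv_Rp hD).2 Q
    obtain ⟨u', ⟨x', hxD', hx'⟩, hu0', hQ'⟩ := (H.isPoleDiv_Rp hD').2 Q
    have h1 : u * u' ∈ R.redSub (LS (D + D')) :=
      ⟨x * x', mul_mem_LS hxD hxD', by rw [map_mul, hx, hx']⟩
    have h2 := (H.isPoleDiv_Rp hDD).1 _ h1 (mul_ne_zero hu0 hu0') Q
    rw [Q.ord_mul hu0 hu0', hQ, hQ'] at h2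
    rw [Finsupp.add_apply]
    omega
  · rw [map_add, H.degree_Rp hD, H.degree_Rp hD', H.degree_Rp hDD, map_add]

/-- Behaviour under multiplication by a unit of the valuation ring. -/
theorem Rp_sub_div {D : Divisor K F} (hD : c + g ≤ Divisor.degree D) (x : R.O)
    (hx : R.red x ≠ 0) (Dx : Divisor K F) (hDx : ∀ v : Place K F, Dx v = v.ord (x : F))
    (Dbx : Divisor k Fb) (hDbx : ∀ Q : Place k Fb, Dbx Q = Q.ord (R.red x))
    (hD' : c + g ≤ Divisor.degree (D - Dx)) :
    R.Rp (D - Dx) = R.Rp D - Dbx := by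
  have hx0 : (x : F) ≠ 0 := by
    intro h0
    apply hx
    have : x = 0 := Subtype.ext h0
    rw [this, map_zero]
  refine (H.isPoleDiv_Rp hD').unique ⟨?_, ?_⟩
  · rintro u ⟨z, hzD, hz⟩ hu0 Q
    have hz0 : (z : F) ≠ 0 := by
      intro h0
      apply hu0
      have : z = 0 := Subtype.ext h0
      rw [← hz, this, map_zero]
    have h1 : u * (R.red x)⁻¹ ∈ R.redSub (LS D) := by
      refine ⟨z * ⟨(x : F)⁻¹, R.inv_mem_of_red_ne_zero hx⟩, ?_, by rw [map_mul, R.red_inv hx, hz]⟩
      have hc : ((z * ⟨(x : F)⁻¹, R.inv_mem_of_red_ne_zero hx⟩ : R.O) : F)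
          = (z : F) * (x : F)⁻¹ := rfl
      rw [hc, mem_LS_of_ne_zero (mul_ne_zero hz0 (inv_ne_zero hx0))]
      intro v
      have := (mem_LS_of_ne_zero hz0).mp hzD v
      rw [Finsupp.sub_apply, hDx] at this
      rw [v.ord_mul hz0 (inv_ne_zero hx0), v.ord_inv]
      omega
    have h2 := (H.isPoleDiv_Rp hD).1 _ h1 (mul_ne_zero hu0 (inv_ne_zero hx)) Q
    rw [Q.ord_mul hu0 (inv_ne_zero hx), Q.ord_inv] at h2
    rw [Finsupp.sub_apply, hDbx]
    omega
  · intro Q
    obtain ⟨u, ⟨z, hzD, hz⟩, hu0, hQ⟩ := (H.isPoleDiv_Rp hD).2 Q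
    have hz0 : (z : F) ≠ 0 := by
      intro h0
      apply hu0
      have : z = 0 := Subtype.ext h0
      rw [← hz, this, map_zero]
    refine ⟨u * R.red x, ⟨z * x, ?_, by rw [map_mul, hz]⟩, mul_ne_zero hu0 hx, ?_⟩
    · have hc : ((z * x : R.O) : F) = (z : F) * (x : F) := rfl
      rw [hc, mem_LS_of_ne_zero (mul_ne_zero hz0 hx0)]
      intro v
      have := (mem_LS_of_ne_zero hz0).mp hzD v
      rw [Finsupp.sub_apply, hDx, v.ord_mul hz0 hx0]
      omega
    · rw [Q.ord_mul hu0 hx, hQ, Finsupp.sub_apply, hDbx]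
      omega

/-- **Deuring's reduction of places.** -/
theorem exists_placeMap :
    ∃ r : Place K F → Place k Fb, Function.Surjective r ∧
      (∀ (x : R.O), R.red x ≠ 0 → ∀ D : Divisor K F, (∀ v : Place K F, D v = v.ord (x : F)) →
        ∀ Q : Place k Fb, (D.mapDomain r) Q = Q.ord (R.red x)) ∧
      (∀ D : Divisor K F, c + g ≤ Divisor.degree D → R.redSub (LS D) = LS (D.mapDomain r)) := by
  classical
  have := H.hpd_top
  have := H.hpd_bot
  have hc := H.c_nonneg
  have hg := H.g_nonneg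
  obtain ⟨P₀⟩ := H.nonempty_top
  have hdegP : ∀ (P : Place K F) (n : ℤ), Divisor.degree (Finsupp.single P n) = n := by
    intro P n
    rw [Divisor.degree_single, H.deg_top P]
    simp
  obtain ⟨φ, hφ⟩ := exists_addMonoidHom_of_add_on
    (fun D : Divisor K F => c + g ≤ Divisor.degree D)
    (fun G => ⟨Finsupp.single P₀ (c + g + |Divisor.degree G|), by
        rw [hdegP]
        have := abs_nonneg (Divisor.degree G)
        linarith, by
        rw [map_add, hdegP]
        have := neg_abs_le (Divisor.degree G)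
        linarith⟩)
    (fun D D' hD hD' => by rw [map_add]; linarith)
    R.Rp (fun D D' hD hD' => H.Rp_add hD hD')
  set B : Divisor K F := Finsupp.single P₀ (c + g) with hB
  have hBdeg : Divisor.degree B = c + g := hdegP _ _
  have hBl : c + g ≤ Divisor.degree B := hBdeg.ge
  -- the image of a place
  have hplace : ∀ P : Place K F, ∃ Q : Place k Fb, φ (Finsupp.single P 1) = Finsupp.single Q 1 := by
    intro P
    have hBP : c + g ≤ Divisor.degree (B + Finsupp.single P 1) := by
      rw [map_add, hBdeg, hdegP]; linarith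
    rw [hφ _ B hBl hBP]
    refine exists_eq_single H.deg_bot (fun Q => ?_) ?_
    · rw [Finsupp.sub_apply]
      have := H.Rp_mono hBl hBP (fun v => by
        rw [Finsupp.add_apply, Finsupp.single_apply (a := P)]
        split_ifs <;> omega) Q
      omega
    · rw [map_sub, H.degree_Rp hBP, H.degree_Rp hBl, map_add, hBdeg, hdegP]
      ring
  choose r hr using hplace
  have hφr : ∀ D : Divisor K F, φ D = D.mapDomain r := by
    intro D
    have : φ = Finsupp.mapDomain.addMonoidHom r := by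
      refine Finsupp.addHom_ext fun P n => ?_
      have h1 : (Finsupp.single P n : Divisor K F) = n • Finsupp.single P 1 := by
        rw [Finsupp.smul_single, smul_eq_mul, mul_one]
      rw [h1, map_zsmul, map_zsmul, hr, Finsupp.mapDomain.addMonoidHom_apply,
        Finsupp.mapDomain_single]
    rw [this, Finsupp.mapDomain.addMonoidHom_apply]
  have hlarge : ∀ D : Divisor K F, c + g ≤ Divisor.degree D → φ D = R.Rp D := by
    intro D hD
    have hDD : c + g ≤ Divisor.degree (D + D) := by rw [map_add]; linarith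
    rw [hφ D D hD hDD, H.Rp_add hD hD, add_sub_cancel_right]
  have hP1 : ∀ (x : R.O), R.red x ≠ 0 → ∀ D : Divisor K F,
      (∀ v : Place K F, D v = v.ord (x : F)) →
        ∀ Q : Place k Fb, (D.mapDomain r) Q = Q.ord (R.red x) := by
    intro x hx D hD Q
    have hx0 : (x : F) ≠ 0 := by
      intro h0
      apply hx
      have : x = 0 := Subtype.ext h0
      rw [this, map_zero]
    obtain ⟨D', hD', hdeg'⟩ := HasPrincipalDivisors.exists_divisor (K := K) (x : F) hx0
    have hDD' : D = D' := by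
      ext v
      rw [hD, hD']
    obtain ⟨Dbx, hDbx, -⟩ := HasPrincipalDivisors.exists_divisor (K := k) (R.red x) hx
    have hBD : c + g ≤ Divisor.degree (B - D) := by
      rw [map_sub, hDD', hdeg', hBdeg]; linarith
    have h1 := H.Rp_sub_div hBl x hx D hD Dbx hDbx hBD
    have h2 : φ (-D) = R.Rp (B + -D) - R.Rp B := hφ (-D) B hBl (by rwa [← sub_eq_add_neg])
    rw [← sub_eq_add_neg, h1, map_neg] at h2
    have h3 : φ D = Dbx := by
      have : -φ D = -Dbx := by rw [h2]; abel
      exact neg_injective this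
    rw [← hφr, h3, hDbx]
  refine ⟨r, ?_, hP1, ?_⟩
  · intro Q
    obtain ⟨π, hπ⟩ := IsDiscreteValuationRing.exists_irreducible Q.toValuationSubring
    have hord : Q.ord (π : Fb) = 1 := Q.ord_coe_irreducible hπ
    obtain ⟨x, hx⟩ := R.red_surjective (π : Fb)
    have hπ0 : (π : Fb) ≠ 0 := by
      intro h0
      rw [h0, Place.ord_zero] at hord
      omega
    have hx' : R.red x ≠ 0 := by rw [hx]; exact hπ0
    have hx0 : (x : F) ≠ 0 := by
      intro h0
      apply hx'
      have : x = 0 := Subtype.ext h0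
      rw [this, map_zero]
    obtain ⟨D, hD, -⟩ := HasPrincipalDivisors.exists_divisor (K := K) (x : F) hx0
    have h1 := hP1 x hx' D hD Q
    rw [hx, hord] at h1
    have h2 : Q ∈ (D.mapDomain r).support := by
      rw [Finsupp.mem_support_iff, h1]
      exact one_ne_zero
    have h3 := Finsupp.mapDomain_support h2
    obtain ⟨P, -, hP⟩ := Finset.mem_image.mp h3
    exact ⟨P, hP⟩
  · intro D hD
    rw [H.redSub_LS_eq hD, ← hφr, hlarge D hD]

end DeuringHyp

end Fermat.Agent.RED
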