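import Fermat.Agent.RED.Gauss.Bridge
import Fermat.Agent.RED.Gauss.ONDatum
import Fermat.Agent.RED.Cusp.Final
import Fermat.Agent.RED.FF.DeuringBridge
import Fermat.Agent.RED.ResField
import Fermat.Agent.GAL.HeckeInputs

/-!
# Deuring's reduction for the modular function fields

From the genus inequality `gR (F_M) ≤ gR (Fb_M)` ([GEN]) we get the hypotheses of Deuring's theory
for the Gauss datum of `F_M`, the reduction map of places, and the Prelude's
`ReductionInputsModL A M`.
-/

set_option autoImplicit false
set_option synthInstance.maxHeartbeats 400000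

noncomputable section

open AlgebraicCurve ModularCurve IntermediateField

namespace Fermat.Agent.RED

open Fermat.Agent.S24 Fermat.Agent.S28

variable {ℓ : ℕ} [Fact ℓ.Prime] (M : ℕ) [NeZero M] (A : ValuationSubring (AlgebraicClosure ℚ))

/-- `j` is a separating parameter of `F_M` over `ℚ̄`. -/
theorem isSepParam_jF_deu : IsSepParam (AlgebraicClosure ℚ) (jF M) :=
  IsSepParam.of_charZero (Fermat.Agent.GAL.HeckeInputs.isFiniteParam_jF M)

/-- `DeuringHyp` for the Gauss datum of `F_M`, from the genus inequality. -/
theorem exists_deuringHyp_gaussData (hA : A.LiesOverPrime ℓ) (hℓM : ¬ ℓ ∣ M)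
    (hgen : gR (AlgebraicClosure ℚ) (modularFunctionFieldBar M) ≤
      gR (IsLocalRing.ResidueField A) (modularFunctionFieldFullC (IsLocalRing.ResidueField A) M)) :
    ∃ c : ℤ, DeuringHyp (gaussData A M hA hℓM)
      (gR (AlgebraicClosure ℚ) (modularFunctionFieldBar M)) c := by
  have := charP_residueField A hA
  have := isAlgClosed_resField A
  exact exists_deuringHyp (gaussData A M hA hℓM) (isSepParam_jF_deu M)
    (Cusp.isSepParam_jb M (IsLocalRing.ResidueField A) ℓ hℓM) hgen
    (gaussRedData_on (IsLocalRing.residue A) IsLocalRing.residue_surjective (card_Q_pos M)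
      (exists_isCoreExt M ℓ hℓM).choose_spec)

/-- **[EXIST]** modulo [GEN]: the reduction map of places exists as soon as the genus does not
drop. -/
theorem reductionInputsModL_of_genus_le (hA : A.LiesOverPrime ℓ) (hℓM : ¬ ℓ ∣ M)
    (hgen : gR (AlgebraicClosure ℚ) (modularFunctionFieldBar M) ≤
      gR (IsLocalRing.ResidueField A) (modularFunctionFieldFullC (IsLocalRing.ResidueField A) M)) :
    ReductionInputsModL A M := by
  have := charP_residueField A hA
  have := isAlgClosed_resField A
  obtain ⟨c, H⟩ := exists_deuringHyp_gaussData M A hA hℓM hgen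
  obtain ⟨r, -, hP1, -⟩ := H.exists_placeMap
  have := (isSepParam_jF_deu M).hasPrincipalDivisors
  exact reductionInputsAlong_of_P1 (IsLocalRing.residue A) IsLocalRing.residue_surjective
    (card_Q_pos M) (exists_isCoreExt M ℓ hℓM).choose_spec r
    (fun P => by
      rw [(Cusp.isSepParam_jb M (IsLocalRing.ResidueField A) ℓ hℓM).deg_eq_one,
        (isSepParam_jF_deu M).deg_eq_one])
    hP1

end Fermat.Agent.RED
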